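import Fermat.Agent.H58.SS2.IndBeta
import Fermat.Agent.H42.ESEKron

/-!
# P-SS2 row 899 (VAL3), concrete inputs (I-α), (F-β), (F-α) at the model (helper58)

See `IndBeta.lean` for the setting.  `W`, `Wq` are field automorphisms with `W ∘ α = β ∘ Wq`
and `W Z = -Z` (for the model: the Atkin-Lehner involutions `W_{q²}` and `W_q`).
-/

set_option autoImplicit false
set_option linter.unusedSectionVars false
set_option linter.style.haveILetI false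

noncomputable section

namespace Fermat.Agent.H58.SS2

open ModularCurve AlgebraicCurve Polynomial
open Fermat.Agent.H22.KL Fermat.Agent.H66 Fermat.Agent.H7.SS2 Fermat.Agent.H55.SS
open Fermat.Agent.H34.SS

section Model

variable {K₁ : Type} [Field K₁] [Algebra ℚ K₁] (A₀ : Type) [CommRing A₀] [IsDomain A₀]
  [IsDiscreteValuationRing A₀] [Algebra A₀ K₁] [IsFractionRing A₀ K₁]
  (L q : ℕ) [NeZero L] [NeZero q]

theorem ib_mem_nonunits_vZero_iff (N : ℕ) (W : ModelField K₁ N ≃ₐ[K₁] ModelField K₁ N)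
    (z : ModelField K₁ N) :
    z ∈ (vZero K₁ A₀ N W).nonunits ↔ W z ∈ (vInf K₁ A₀ N).nonunits :=
  ib_mem_nonunits_comap (vInf K₁ A₀ N) (W : ModelField K₁ N →+* ModelField K₁ N) z

theorem ib_mem_vZero_iff (N : ℕ) (W : ModelField K₁ N ≃ₐ[K₁] ModelField K₁ N)
    (z : ModelField K₁ N) :
    z ∈ vZero K₁ A₀ N W ↔ W z ∈ vInf K₁ A₀ N := Iff.rfl

/-- `±1` times a nonunit is a nonunit. -/
theorem ib_neg_one_pow_mul_mem_nonunits {E : Type*} [Field E] (U : ValuationSubring E) (n : ℕ)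
    (x : E) : (-1) ^ n * x ∈ U.nonunits ↔ x ∈ U.nonunits := by
  rw [ValuationSubring.mem_nonunits_iff, ValuationSubring.mem_nonunits_iff, map_mul, map_pow,
    Valuation.map_neg, map_one, one_pow, one_mul]

theorem ib_neg_one_pow_mul_mem {E : Type*} [Field E] (U : ValuationSubring E) (n : ℕ)
    (x : E) : (-1) ^ n * x ∈ U ↔ x ∈ U := by
  rw [← ValuationSubring.valuation_le_one_iff, ← ValuationSubring.valuation_le_one_iff, map_mul,
    map_pow, Valuation.map_neg, map_one, one_pow, one_mul]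

/-- **(I-α)**: the residues of `1, Z, …, Z^(q-1)` at `V₀₂ = vZero (L q) W` are independent over
`O₂ = vZero L Wq` along `α`. -/
theorem indAlpha_model (hq : q.Prime)
    (h h₁ : vGaussRing (rangeVal A₀ K₁)) (hh : vGaussRed (rangeVal A₀ K₁) h ≠ 0)
    (hord : ¬ (q : ℤ) ∣ (vGaussRed (rangeVal A₀ K₁) h).order)
    (Z : ModelField K₁ (L * q))
    (hZ : ibCoe K₁ (L * q) Z = qExpand K₁ q (h₁ : LaurentSeries K₁) - (h : LaurentSeries K₁))
    (Wq : ModelField K₁ L ≃ₐ[K₁] ModelField K₁ L)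
    (W : ModelField K₁ (L * q) ≃ₐ[K₁] ModelField K₁ (L * q))
    (hWα : ∀ g, W (heckeAlphaBar K₁ L q g) = heckeBetaBar K₁ L q (Wq g))
    (hWZ : W Z = -Z) :
    ∀ c : Fin q → ModelField K₁ L, (∀ j, c j ∈ vZero K₁ A₀ L Wq) →
      (∑ j, (heckeAlphaBar K₁ L q).toRingHom (c j) * Z ^ (j : ℕ)) ∈
        (vZero K₁ A₀ (L * q) W).nonunits →
      ∀ j, c j ∈ (vZero K₁ A₀ L Wq).nonunits := by
  intro c hc hsum j
  rw [ib_mem_nonunits_vZero_iff] at hsum ⊢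
  have hc' : ∀ j : Fin q, (-1) ^ (j : ℕ) * Wq (c j) ∈ vInf K₁ A₀ L := fun j =>
    (ib_neg_one_pow_mul_mem _ _ _).2 ((ib_mem_vZero_iff A₀ L Wq (c j)).1 (hc j))
  have hsum' : (∑ j : Fin q, (heckeBetaBar K₁ L q).toRingHom ((-1) ^ (j : ℕ) * Wq (c j)) *
      Z ^ (j : ℕ)) ∈ (vInf K₁ A₀ (L * q)).nonunits := by
    have e : W (∑ j, (heckeAlphaBar K₁ L q).toRingHom (c j) * Z ^ (j : ℕ)) =
        ∑ j : Fin q, (heckeBetaBar K₁ L q).toRingHom ((-1) ^ (j : ℕ) * Wq (c j)) *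
          Z ^ (j : ℕ) := by
      rw [map_sum]
      refine Finset.sum_congr rfl fun j _ => ?_
      rw [map_mul, map_pow, hWZ, map_mul, map_pow, map_neg, map_one]
      have e1 : W ((heckeAlphaBar K₁ L q).toRingHom (c j)) =
          (heckeBetaBar K₁ L q).toRingHom (Wq (c j)) := hWα (c j)
      rw [e1, neg_pow]
      ring
    rw [← e]
    exact hsum
  have key := indBeta_model A₀ L q hq h h₁ hh hord Z hZ
    (fun j => (-1) ^ (j : ℕ) * Wq (c j)) hc' hsum' j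
  exact (ib_neg_one_pow_mul_mem_nonunits _ _ _).1 key

/-- **(F-β)**: `Z^q ≡ β (-Y₁)` modulo `𝔪_{V₂₀}`, `Y₁ = h - h₁^q`. -/
theorem congBeta_model [hqF : Fact q.Prime]
    [CharP (IsLocalRing.ResidueField ↥(rangeVal A₀ K₁)) q]
    (h h₁ : vGaussRing (rangeVal A₀ K₁))
    (hfrob : (vGaussRed (rangeVal A₀ K₁) h) ^ q =
      qExpand (IsLocalRing.ResidueField ↥(rangeVal A₀ K₁)) q (vGaussRed (rangeVal A₀ K₁) h))
    (Z : ModelField K₁ (L * q))
    (hZ : ibCoe K₁ (L * q) Z = qExpand K₁ q (h₁ : LaurentSeries K₁) - (h : LaurentSeries K₁))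
    (Y₁ : ModelField K₁ L)
    (hY : ibCoe K₁ L Y₁ = (h : LaurentSeries K₁) - (h₁ : LaurentSeries K₁) ^ q) :
    Y₁ ∈ vInf K₁ A₀ L ∧
      Z ^ q + (heckeBetaBar K₁ L q).toRingHom Y₁ ∈ (vInf K₁ A₀ (L * q)).nonunits := by
  have hY' : ibCoe K₁ L Y₁ ∈ vGaussRing (rangeVal A₀ K₁) := by
    rw [hY]
    exact ((h - h₁ ^ q : vGaussRing (rangeVal A₀ K₁))).2
  refine ⟨(ib_mem_vInf_iff A₀ L Y₁).2 hY', ?_⟩
  rw [ib_mem_nonunits_vInf_iff]
  have e : ibCoe K₁ (L * q) (Z ^ q + (heckeBetaBar K₁ L q).toRingHom Y₁) =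
      (((ibQ (rangeVal A₀ K₁) q h₁ - h) ^ q + ibQ (rangeVal A₀ K₁) q (h - h₁ ^ q) :
        vGaussRing (rangeVal A₀ K₁)) : LaurentSeries K₁) := by
    rw [map_add, map_pow, hZ, ibCoe_beta, hY]
    push_cast
    rw [ibQ_coe, ibQ_coe]
    push_cast
    rfl
  refine ⟨by rw [e]; exact Subtype.coe_prop _, ?_⟩
  have e' : (⟨ibCoe K₁ (L * q) (Z ^ q + (heckeBetaBar K₁ L q).toRingHom Y₁),
      by rw [e]; exact Subtype.coe_prop _⟩ : vGaussRing (rangeVal A₀ K₁)) =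
      (ibQ (rangeVal A₀ K₁) q h₁ - h) ^ q + ibQ (rangeVal A₀ K₁) q (h - h₁ ^ q) :=
    Subtype.ext e
  rw [e', map_add, map_pow, map_sub, vGaussRed_ibQ, vGaussRed_ibQ, map_sub, map_pow, map_sub,
    map_pow, Fermat.Agent.H42.laurent_pow_char (ℓ := q), map_sub, map_sub,
    ← Fermat.Agent.H42.laurent_pow_char (ℓ := q), ← Fermat.Agent.H42.laurent_pow_char (ℓ := q),
    hfrob]
  ring

/-- **(F-α)**: `Z^q ≡ α b₀` modulo `𝔪_{V₀₂}` for some `b₀ ∈ O₂`. -/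
theorem congAlpha_model [hqF : Fact q.Prime]
    [CharP (IsLocalRing.ResidueField ↥(rangeVal A₀ K₁)) q]
    (h h₁ : vGaussRing (rangeVal A₀ K₁))
    (hfrob : (vGaussRed (rangeVal A₀ K₁) h) ^ q =
      qExpand (IsLocalRing.ResidueField ↥(rangeVal A₀ K₁)) q (vGaussRed (rangeVal A₀ K₁) h))
    (Z : ModelField K₁ (L * q))
    (hZ : ibCoe K₁ (L * q) Z = qExpand K₁ q (h₁ : LaurentSeries K₁) - (h : LaurentSeries K₁))
    (Y₁ : ModelField K₁ L)
    (hY : ibCoe K₁ L Y₁ = (h : LaurentSeries K₁) - (h₁ : LaurentSeries K₁) ^ q)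
    (Wq : ModelField K₁ L ≃ₐ[K₁] ModelField K₁ L)
    (W : ModelField K₁ (L * q) ≃ₐ[K₁] ModelField K₁ (L * q))
    (hWα : ∀ g, W (heckeAlphaBar K₁ L q g) = heckeBetaBar K₁ L q (Wq g))
    (hWZ : W Z = -Z) :
    ∃ b₀ ∈ vZero K₁ A₀ L Wq,
      Z ^ q - (heckeAlphaBar K₁ L q).toRingHom b₀ ∈ (vZero K₁ A₀ (L * q) W).nonunits := by
  obtain ⟨hY₁, hcong⟩ := congBeta_model A₀ L q h h₁ hfrob Z hZ Y₁ hY
  refine ⟨Wq.symm ((-1) ^ (q + 1) * Y₁), ?_, ?_⟩
  · rw [ib_mem_vZero_iff, AlgEquiv.apply_symm_apply]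
    exact (ib_neg_one_pow_mul_mem _ _ _).2 hY₁
  · rw [ib_mem_nonunits_vZero_iff]
    have e1 : W ((heckeAlphaBar K₁ L q).toRingHom (Wq.symm ((-1) ^ (q + 1) * Y₁))) =
        (heckeBetaBar K₁ L q).toRingHom ((-1) ^ (q + 1) * Y₁) := by
      have := hWα (Wq.symm ((-1) ^ (q + 1) * Y₁))
      rw [AlgEquiv.apply_symm_apply] at this
      exact this
    have e : W (Z ^ q - (heckeAlphaBar K₁ L q).toRingHom (Wq.symm ((-1) ^ (q + 1) * Y₁))) =
        (-1) ^ q * (Z ^ q + (heckeBetaBar K₁ L q).toRingHom Y₁) := by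
      rw [map_sub, map_pow, hWZ, e1, map_mul, map_pow, map_neg, map_one, neg_pow Z]
      ring
    rw [e]
    exact (ib_neg_one_pow_mul_mem_nonunits _ _ _).2 hcong

end Model

end Fermat.Agent.H58.SS2
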