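import Fermat.Agent.H58.SS2.IndCore
import Fermat.Agent.H34.SS.KtValBridge

/-!
# P-SS2 row 899 (VAL3), concrete inputs (I-β), (I-α), (F-β), (F-α) at the model (helper58)

`F = ModelField K₁ L`, `E = ModelField K₁ (L q)`, `α, β : F → E` the two degeneracy maps,
`O₁ = vInf K₁ A₀ L`, `V₂₀ = vInf K₁ A₀ (L q)` the Gauss valuations of `q`-expansions,
`O₂ = vZero K₁ A₀ L Wq`, `V₀₂ = vZero K₁ A₀ (L q) W`.

`Z ∈ E` has the `q`-expansion `h₁(t^q) - h`, with `h, h₁` in the Gauss ring and the reduction of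
`h` of order prime to `q` (for the model: `h = H` the Hauptmodul, `h₁ = H(t^q)`, `Z = H₂ - H`).

* `ib_mem_nonunits_vInf_iff` : nonunits of `vInf` = elements with Gauss reduction `0`.
* `indBeta_model` : (I-β) the residues of `1, Z, …, Z^(q-1)` at `V₂₀` are independent over `O₁`
  along `β`.
* `indAlpha_model` : (I-α) the same at `V₀₂` over `O₂` along `α` (transport by `W`, `W Z = -Z`).
* `congBeta_model` : (F-β) `Z^q ≡ β (-Y₁)` modulo `𝔪_{V₂₀}`, `Y₁ = h - h₁^q`.
* `congAlpha_model` : (F-α) `Z^q ≡ α b₀` modulo `𝔪_{V₀₂}`, `b₀ = (-1)^(q+1) Wq Y₁`.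
-/

set_option autoImplicit false
set_option linter.unusedSectionVars false
set_option linter.style.haveILetI false

noncomputable section

namespace Fermat.Agent.H58.SS2

open ModularCurve AlgebraicCurve Polynomial
open Fermat.Agent.H22.KL Fermat.Agent.H66 Fermat.Agent.H7.SS2 Fermat.Agent.H55.SS
open Fermat.Agent.H34.SS

/-- Characterisation of the nonunits of a valuation subring. -/
theorem ib_mem_nonunits_iff {E : Type*} [Field E] (U : ValuationSubring E) (x : E) :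
    x ∈ U.nonunits ↔ x = 0 ∨ x⁻¹ ∉ U := by
  rw [ValuationSubring.mem_nonunits_iff]
  constructor
  · intro h
    by_cases hx : x = 0
    · exact Or.inl hx
    · right
      intro hinv
      have h1 : U.valuation x⁻¹ ≤ 1 := (U.valuation_le_one_iff _).mpr hinv
      rw [map_inv₀] at h1
      have hv0 : U.valuation x ≠ 0 := (Valuation.ne_zero_iff _).mpr hx
      have h2 : 1 ≤ U.valuation x := (inv_le_one₀ (zero_lt_iff.mpr hv0)).mp h1
      exact absurd h (not_lt.mpr h2)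
  · rintro (rfl | h)
    · rw [map_zero]
      exact zero_lt_one
    · by_contra hcon
      rw [not_lt] at hcon
      apply h
      rw [← ValuationSubring.valuation_le_one_iff, map_inv₀]
      exact inv_le_one_of_one_le₀ hcon

theorem ib_mem_of_mem_nonunits {E : Type*} [Field E] (U : ValuationSubring E) {x : E}
    (hx : x ∈ U.nonunits) : x ∈ U := by
  rw [ValuationSubring.mem_nonunits_iff] at hx
  exact (U.valuation_le_one_iff _).mp hx.le

/-- Nonunits of a comap along a field automorphism. -/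
theorem ib_mem_nonunits_comap {E : Type*} [Field E] (U : ValuationSubring E) (W : E →+* E)
    (x : E) : x ∈ (U.comap W).nonunits ↔ W x ∈ U.nonunits := by
  rw [ib_mem_nonunits_iff, ib_mem_nonunits_iff, ValuationSubring.mem_comap]
  constructor
  · rintro (rfl | h)
    · exact Or.inl (map_zero W)
    · right
      rw [← map_inv₀]
      exact h
  · rintro (h | h)
    · left
      exact (map_eq_zero W).mp h
    · right
      rw [← map_inv₀] at h
      exact h

section Model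

variable (K₁ : Type) [Field K₁] [Algebra ℚ K₁] (A₀ : Type) [CommRing A₀] [IsDomain A₀]
  [IsDiscreteValuationRing A₀] [Algebra A₀ K₁] [IsFractionRing A₀ K₁]

/-- The `q`-expansion as a ring homomorphism. -/
def ibCoe (N : ℕ) : ModelField K₁ N →+* LaurentSeries K₁ where
  toFun := fun x => (x : LaurentSeries K₁)
  map_one' := rfl
  map_mul' := fun _ _ => rfl
  map_zero' := rfl
  map_add' := fun _ _ => rfl

theorem ibCoe_apply (N : ℕ) (x : ModelField K₁ N) : ibCoe K₁ N x = (x : LaurentSeries K₁) := rfl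

variable {K₁}

theorem ib_toRingHom_apply {R A B : Type*} [CommSemiring R] [Semiring A] [Semiring B]
    [Algebra R A] [Algebra R B] (f : A →ₐ[R] B) (x : A) : f.toRingHom x = f x := rfl

theorem ib_mem_vInf_iff (N : ℕ) (z : ModelField K₁ N) :
    z ∈ vInf K₁ A₀ N ↔ ibCoe K₁ N z ∈ vGaussRing (rangeVal A₀ K₁) := by
  rw [ibCoe_apply]
  exact mem_vInf_iff_mem_vGaussRing K₁ A₀ N z

/-- The nonunits of `vInf` are the elements with Gauss reduction `0`. -/
theorem ib_mem_nonunits_vInf_iff (N : ℕ) (z : ModelField K₁ N) :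
    z ∈ (vInf K₁ A₀ N).nonunits ↔
      ∃ hz : ibCoe K₁ N z ∈ vGaussRing (rangeVal A₀ K₁),
        vGaussRed (rangeVal A₀ K₁) ⟨ibCoe K₁ N z, hz⟩ = 0 := by
  constructor
  · intro h
    have hz := (ib_mem_vInf_iff A₀ N z).1 (ib_mem_of_mem_nonunits _ h)
    refine ⟨hz, ?_⟩
    by_contra hne
    rcases (ib_mem_nonunits_iff _ z).1 h with h0 | hinv
    · apply hne
      have e0 : ibCoe K₁ N z = 0 := by rw [h0, map_zero]
      have : (⟨ibCoe K₁ N z, hz⟩ : vGaussRing (rangeVal A₀ K₁)) = 0 := Subtype.ext e0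
      rw [this, map_zero]
    · apply hinv
      have hi := inv_mem_vGaussRing (rangeVal A₀ K₁) hne
      have e : ibCoe K₁ N z⁻¹ = (ibCoe K₁ N z)⁻¹ := map_inv₀ _ _
      exact (ib_mem_vInf_iff A₀ N z⁻¹).2 (by rw [e]; exact hi)
  · rintro ⟨hz, h0⟩
    rw [ib_mem_nonunits_iff]
    by_cases hz0 : z = 0
    · exact Or.inl hz0
    right
    intro hinv
    have hinv' := (ib_mem_vInf_iff A₀ N z⁻¹).1 hinv
    have e1 : ibCoe K₁ N z * ibCoe K₁ N z⁻¹ = 1 := by
      rw [← map_mul, mul_inv_cancel₀ hz0, map_one]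
    have h1 : (⟨ibCoe K₁ N z, hz⟩ : vGaussRing (rangeVal A₀ K₁)) * ⟨ibCoe K₁ N z⁻¹, hinv'⟩ = 1 :=
      Subtype.ext e1
    have h2 := congrArg (vGaussRed (rangeVal A₀ K₁)) h1
    rw [map_mul, h0, zero_mul, map_one] at h2
    exact zero_ne_one h2

variable (L q : ℕ) [NeZero L] [NeZero q]

theorem ibCoe_beta (y : ModelField K₁ L) :
    ibCoe K₁ (L * q) ((heckeBetaBar K₁ L q).toRingHom y) = qExpand K₁ q (ibCoe K₁ L y) := by
  rw [ib_toRingHom_apply, ibCoe_apply, ibCoe_apply, coe_heckeBetaBar]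

theorem ibCoe_alpha (y : ModelField K₁ L) :
    ibCoe K₁ (L * q) ((heckeAlphaBar K₁ L q).toRingHom y) = ibCoe K₁ L y := by
  rw [ib_toRingHom_apply, ibCoe_apply, ibCoe_apply, coe_heckeAlphaBar]

/-- **(I-β)**: the residues of `1, Z, …, Z^(q-1)` at `V₂₀ = vInf (L q)` are independent over
`O₁ = vInf L` along `β`. -/
theorem indBeta_model (hq : q.Prime)
    (h h₁ : vGaussRing (rangeVal A₀ K₁)) (hh : vGaussRed (rangeVal A₀ K₁) h ≠ 0)
    (hord : ¬ (q : ℤ) ∣ (vGaussRed (rangeVal A₀ K₁) h).order)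
    (Z : ModelField K₁ (L * q))
    (hZ : ibCoe K₁ (L * q) Z = qExpand K₁ q (h₁ : LaurentSeries K₁) - (h : LaurentSeries K₁)) :
    ∀ c : Fin q → ModelField K₁ L, (∀ j, c j ∈ vInf K₁ A₀ L) →
      (∑ j, (heckeBetaBar K₁ L q).toRingHom (c j) * Z ^ (j : ℕ)) ∈
        (vInf K₁ A₀ (L * q)).nonunits →
      ∀ j, c j ∈ (vInf K₁ A₀ L).nonunits := by
  intro c hc hsum j
  have hc' : ∀ j, ibCoe K₁ L (c j) ∈ vGaussRing (rangeVal A₀ K₁) :=
    fun j => (ib_mem_vInf_iff A₀ L (c j)).1 (hc j)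
  obtain ⟨hS, hS0⟩ := (ib_mem_nonunits_vInf_iff A₀ (L * q) _).1 hsum
  have e : ((∑ j : Fin q, ibQ (rangeVal A₀ K₁) q ⟨ibCoe K₁ L (c j), hc' j⟩ *
      (ibQ (rangeVal A₀ K₁) q h₁ - h) ^ (j : ℕ) : vGaussRing (rangeVal A₀ K₁)) :
        LaurentSeries K₁) =
      ibCoe K₁ (L * q) (∑ j, (heckeBetaBar K₁ L q).toRingHom (c j) * Z ^ (j : ℕ)) := by
    rw [map_sum]
    push_cast
    refine Finset.sum_congr rfl fun j _ => ?_
    rw [map_mul, map_pow, hZ, ibCoe_beta, ibQ_coe, ibQ_coe]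
  have e' : (∑ j : Fin q, ibQ (rangeVal A₀ K₁) q ⟨ibCoe K₁ L (c j), hc' j⟩ *
      (ibQ (rangeVal A₀ K₁) q h₁ - h) ^ (j : ℕ) : vGaussRing (rangeVal A₀ K₁)) =
      ⟨ibCoe K₁ (L * q) (∑ j, (heckeBetaBar K₁ L q).toRingHom (c j) * Z ^ (j : ℕ)), hS⟩ :=
    Subtype.ext e
  have key := ib_core (rangeVal A₀ K₁) q hq h h₁ hh hord
    (fun j => ⟨ibCoe K₁ L (c j), hc' j⟩) (by rw [e']; exact hS0)
  exact (ib_mem_nonunits_vInf_iff A₀ L (c j)).2 ⟨hc' j, key j⟩

end Model

end Fermat.Agent.H58.SS2
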