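import Fermat.Agent.H66.ESD.GaussRing
import Fermat.Agent.H5.SS2.PowIndep

/-!
# P-SS2 row 899 (VAL3), concrete input (I): residue independence, series-level core (helper58)

`A` a valuation subring of a field `L`, `k` its residue field, `O = vGaussRing A ⊆ L((t))` the
Gauss ring with reduction `ρ = vGaussRed A : O → k((t))`.

* `ib_qExpand_mem`, `ib_vGaussRed_qExpand` : `t ↦ t^q` preserves the Gauss ring and commutes with
  the reduction.
* `ib_core` : if `h, h₁ ∈ O`, the order of `ρ h` is prime to `q`, `c_j ∈ O` (`j < q`) and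
  `∑_j c_j(t^q) (h₁(t^q) - h)^j` has reduction `0`, then every `c_j` has reduction `0`.
-/

set_option autoImplicit false
set_option linter.unusedSectionVars false
set_option linter.style.haveILetI false

noncomputable section

namespace Fermat.Agent.H58.SS2

open ModularCurve Polynomial Fermat.Agent.H66

theorem ib_coeffMap_qExpand {R S : Type*} [CommRing R] [CommRing S] (f : R →+* S) (n : ℕ)
    [NeZero n] (x : LaurentSeries R) :
    coeffMap f (qExpand R n x) = qExpand S n (coeffMap f x) := by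
  ext k
  by_cases hk : (n : ℤ) ∣ k
  · obtain ⟨m, rfl⟩ := hk
    rw [coeffMap_coeff, qExpand_coeff_mul, qExpand_coeff_mul, coeffMap_coeff]
  · rw [coeffMap_coeff, qExpand_coeff_of_not_dvd n _ hk, qExpand_coeff_of_not_dvd n _ hk,
      map_zero]

variable {L : Type} [Field L] (A : ValuationSubring L)

theorem ib_vIota_qExpand (q : ℕ) [NeZero q] (a : LaurentSeries ↥A) :
    vIota A (qExpand ↥A q a) = qExpand L q (vIota A a) :=
  ib_coeffMap_qExpand A.subtype q a

theorem ib_vRho_qExpand (q : ℕ) [NeZero q] (a : LaurentSeries ↥A) :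
    vRho A (qExpand ↥A q a) = qExpand (IsLocalRing.ResidueField ↥A) q (vRho A a) :=
  ib_coeffMap_qExpand (IsLocalRing.residue ↥A) q a

/-- `t ↦ t^q` preserves the Gauss ring. -/
theorem ib_qExpand_mem (q : ℕ) [NeZero q] {x : LaurentSeries L} (hx : x ∈ vGaussRing A) :
    qExpand L q x ∈ vGaussRing A := by
  obtain ⟨a, b, hb, h⟩ := hx
  refine ⟨qExpand ↥A q a, qExpand ↥A q b, ?_, ?_⟩
  · rw [ib_vRho_qExpand]
    intro h0
    apply hb
    apply qExpand_injective (R := IsLocalRing.ResidueField ↥A) q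
    rw [h0, map_zero]
  · rw [ib_vIota_qExpand, ib_vIota_qExpand, ← map_mul, h]

/-- `t ↦ t^q` commutes with the reduction. -/
theorem ib_vGaussRed_qExpand (q : ℕ) [NeZero q] (x : vGaussRing A) :
    vGaussRed A ⟨qExpand L q x, ib_qExpand_mem A q x.2⟩ =
      qExpand (IsLocalRing.ResidueField ↥A) q (vGaussRed A x) := by
  obtain ⟨a, b, hb, h⟩ := x.2
  have hb' : vRho A (qExpand ↥A q b) ≠ 0 := by
    rw [ib_vRho_qExpand]
    intro h0
    apply hb
    apply qExpand_injective (R := IsLocalRing.ResidueField ↥A) q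
    rw [h0, map_zero]
  rw [vGaussRed_eq A _ (qExpand ↥A q a) (qExpand ↥A q b) hb'
      (by rw [ib_vIota_qExpand, ib_vIota_qExpand, ← map_mul, h]),
    vGaussRed_eq A x a b hb h, ib_vRho_qExpand, ib_vRho_qExpand, map_div₀]

/-- `t ↦ t^q` on the Gauss ring. -/
def ibQ (q : ℕ) [NeZero q] : vGaussRing A →+* vGaussRing A :=
  ((qExpand L q).comp (vGaussRing A).subtype).codRestrict (vGaussRing A)
    (fun x => ib_qExpand_mem A q x.2)

theorem ibQ_coe (q : ℕ) [NeZero q] (x : vGaussRing A) :
    ((ibQ A q x : vGaussRing A) : LaurentSeries L) = qExpand L q x := rfl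

theorem vGaussRed_ibQ (q : ℕ) [NeZero q] (x : vGaussRing A) :
    vGaussRed A (ibQ A q x) = qExpand (IsLocalRing.ResidueField ↥A) q (vGaussRed A x) :=
  ib_vGaussRed_qExpand A q x

/-- Independence of `1, u, …, u^(q-1)`, `u = h₁(t^q) - h`, over `k((t^q))`, polynomial form. -/
theorem ib_poly (k : Type) [Field k] (q : ℕ) [NeZero q] (hq : q.Prime)
    (h h₁ : LaurentSeries k) (hh : h ≠ 0) (hord : ¬ (q : ℤ) ∣ h.order)
    (a : Fin q → LaurentSeries k)
    (hsum : ∑ j, qExpand k q (a j) * (qExpand k q h₁ - h) ^ (j : ℕ) = 0) :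
    ∀ j, a j = 0 := by
  classical
  set P : Polynomial (LaurentSeries k) := ∑ j : Fin q, C (a j) * X ^ (j : ℕ) with hP
  have hPcoeff : ∀ j : Fin q, P.coeff (j : ℕ) = a j := by
    intro j
    rw [hP, finsetSum_coeff]
    rw [Finset.sum_eq_single j]
    · rw [coeff_C_mul_X_pow, if_pos rfl]
    · intro i _ hij
      rw [coeff_C_mul_X_pow, if_neg]
      intro h'
      exact hij (Fin.ext h'.symm)
    · intro hj
      exact absurd (Finset.mem_univ j) hj
  suffices hP0 : P = 0 by
    intro j
    rw [← hPcoeff j, hP0, coeff_zero]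
  have hdegP : P.natDegree < q := by
    by_cases hP0 : P = 0
    · rw [hP0, natDegree_zero]
      exact hq.pos
    · rw [natDegree_lt_iff_degree_lt hP0]
      exact degree_sum_fin_lt a
  set T : Polynomial (LaurentSeries k) := C h₁ - X with hT
  have hTdeg : T.natDegree ≤ 1 := by
    rw [hT]
    refine (natDegree_sub_le _ _).trans ?_
    rw [natDegree_C]
    exact max_le (Nat.zero_le _) natDegree_X_le
  have hTT : T.comp T = X := by
    rw [hT, sub_comp, C_comp, X_comp]
    ring
  set Q : Polynomial (LaurentSeries k) := P.comp T with hQ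
  have hQdeg : Q.natDegree < q := by
    refine lt_of_le_of_lt ?_ hdegP
    calc Q.natDegree ≤ P.natDegree * T.natDegree := natDegree_comp_le
      _ ≤ P.natDegree * 1 := Nat.mul_le_mul_left _ hTdeg
      _ = P.natDegree := mul_one _
  have hQeval : (Q.map (qExpand k q)).eval h = 0 := by
    rw [hQ, Polynomial.map_comp, eval_comp, hT, Polynomial.map_sub, map_C, map_X, eval_sub,
      eval_C, eval_X, hP, Polynomial.map_sum, eval_finsetSum, ← hsum]
    refine Finset.sum_congr rfl fun j _ => ?_
    rw [Polynomial.map_mul, Polynomial.map_pow, map_C, map_X, eval_mul, eval_pow, eval_C, eval_X]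
  have hQ0 : Q = 0 :=
    Fermat.Agent.H5.SS2.powIndep k q hq h hh hord Q hQdeg hQeval
  have : P = Q.comp T := by
    rw [hQ, comp_assoc, hTT, comp_X]
  rw [this, hQ0, zero_comp]

/-- **Residue independence, series-level core.** -/
theorem ib_core (q : ℕ) [NeZero q] (hq : q.Prime)
    (h h₁ : vGaussRing A) (hh : vGaussRed A h ≠ 0)
    (hord : ¬ (q : ℤ) ∣ (vGaussRed A h).order)
    (c : Fin q → vGaussRing A)
    (hsum : vGaussRed A (∑ j, ibQ A q (c j) * (ibQ A q h₁ - h) ^ (j : ℕ)) = 0) :
    ∀ j, vGaussRed A (c j) = 0 := by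
  apply ib_poly (IsLocalRing.ResidueField ↥A) q hq (vGaussRed A h) (vGaussRed A h₁) hh hord
  rw [← hsum, map_sum]
  refine Finset.sum_congr rfl fun j _ => ?_
  rw [map_mul, map_pow, map_sub, vGaussRed_ibQ, vGaussRed_ibQ]

end Fermat.Agent.H58.SS2
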