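import Fermat.Agent.H58.SS2.IndAlpha
import Fermat.Agent.H86.SS2.Emb3Defs
import Fermat.Agent.H8.SS.Haupt4

/-!
# P-SS2 row 899 (VAL3): the concrete inputs (I-α), (I-β), (F-α), (F-β) for the Hauptmodul of
level 4 (helper58)

`val3Inputs_h4` : at level `M' q q` over level `M' q`, for `Z` with `q`-expansion
`sZ = H(t^(q²)) - H(t)` (`H = h4S` the Hauptmodul of level 4), in EXACTLY the form of the
hypotheses `hindα`, `hindβ`, `hcongα`, `hcongβ` of
`Fermat.Agent.H83.SS2.val3Data_of_table` with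
`α = (heckeAlphaBar K₁ (M' q) q).toRingHom`, `β = (heckeBetaBar K₁ (M' q) q).toRingHom`,
`O₁ = vInf K₁ A₀ (M' q)`, `O₂ = vZero K₁ A₀ (M' q) Wq`, `V₂₀ = vInf K₁ A₀ (M' q q)`,
`V₀₂ = vZero K₁ A₀ (M' q q) W`.
-/

set_option autoImplicit false
set_option linter.unusedSectionVars false
set_option linter.style.haveILetI false

noncomputable section

namespace Fermat.Agent.H58.SS2

open ModularCurve AlgebraicCurve Polynomial
open Fermat.Agent.H22.KL Fermat.Agent.H66 Fermat.Agent.H7.SS2 Fermat.Agent.H55.SS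
open Fermat.Agent.H34.SS Fermat.Agent.H8.SS Fermat.Agent.H86.SS2 Fermat.Agent.H82.SS

section Haupt

variable {L : Type} [Field L] (A : ValuationSubring L)

/-- The Hauptmodul of level 4 in the Gauss ring. -/
def ibH4 : vGaussRing A := ⟨vIota A (h4S ↥A), vIota_mem_vGaussRing A (h4S ↥A)⟩

theorem ibH4_coe : ((ibH4 A : vGaussRing A) : LaurentSeries L) = h4S L :=
  coeffMap_h4S A.subtype

theorem vGaussRed_ibH4 : vGaussRed A (ibH4 A) = h4S (IsLocalRing.ResidueField ↥A) := by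
  unfold ibH4
  rw [vGaussRed_vIota]
  exact coeffMap_h4S (IsLocalRing.residue ↥A)

theorem vGaussRed_ibH4_ne_zero : vGaussRed A (ibH4 A) ≠ 0 := by
  rw [vGaussRed_ibH4]
  exact h4S_ne_zero _

theorem vGaussRed_ibH4_order (q : ℕ) (hq : q.Prime) :
    ¬ (q : ℤ) ∣ (vGaussRed A (ibH4 A)).order := by
  rw [vGaussRed_ibH4, h4S_order]
  intro h
  have h1 : (q : ℤ) ∣ 1 := (dvd_neg).1 h
  have h2 : q ∣ 1 := by exact_mod_cast h1
  exact hq.one_lt.ne' (Nat.dvd_one.1 h2)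

theorem vGaussRed_ibH4_frob (q : ℕ) [hqF : Fact q.Prime]
    [CharP (IsLocalRing.ResidueField ↥A) q] :
    (vGaussRed A (ibH4 A)) ^ q =
      qExpand (IsLocalRing.ResidueField ↥A) q (vGaussRed A (ibH4 A)) := by
  haveI : NeZero q := ⟨hqF.out.ne_zero⟩
  rw [vGaussRed_ibH4, Fermat.Agent.H42.laurent_pow_char (ℓ := q), coeffMap_h4S]

end Haupt

section Model

variable (K₁ : Type) [Field K₁] [Algebra ℚ K₁] (A₀ : Type) [CommRing A₀] [IsDomain A₀]
  [IsDiscreteValuationRing A₀] [Algebra A₀ K₁] [IsFractionRing A₀ K₁]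

/-- The residue characteristic. -/
theorem ib_charP (q : ℕ) (hq : q.Prime) (hqA : ¬ IsUnit ((q : ℕ) : A₀)) :
    CharP (IsLocalRing.ResidueField ↥(rangeVal A₀ K₁)) q := by
  have hnu : ¬ IsUnit ((q : ℕ) : ↥(rangeVal A₀ K₁)) := by
    intro hu
    apply hqA
    obtain ⟨w, hw⟩ := hu.exists_right_inv
    obtain ⟨a, ha⟩ := w.2
    refine IsUnit.of_mul_eq_one a ?_
    apply IsFractionRing.injective A₀ K₁
    have h1 : (((q : ℕ) : ↥(rangeVal A₀ K₁)) : K₁) * (w : K₁) = 1 := by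
      have := congrArg (fun z : ↥(rangeVal A₀ K₁) => (z : K₁)) hw
      simpa using this
    rw [map_mul, map_natCast, map_one, ha]
    simpa using h1
  have hq0 : ((q : ℕ) : IsLocalRing.ResidueField ↥(rangeVal A₀ K₁)) = 0 := by
    have hmem : ((q : ℕ) : ↥(rangeVal A₀ K₁)) ∈ IsLocalRing.maximalIdeal ↥(rangeVal A₀ K₁) :=
      (IsLocalRing.mem_maximalIdeal _).2 hnu
    have := (IsLocalRing.residue_eq_zero_iff _).mpr hmem
    rwa [map_natCast] at this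
  have hdvd : ringChar (IsLocalRing.ResidueField ↥(rangeVal A₀ K₁)) ∣ q :=
    (ringChar.spec (IsLocalRing.ResidueField ↥(rangeVal A₀ K₁)) q).mp hq0
  rcases (Nat.dvd_prime hq).mp hdvd with h1 | h1
  · exact absurd h1 (CharP.ringChar_ne_one)
  · exact ringChar.of_eq h1

variable {K₁} (M' q : ℕ) [NeZero M'] [NeZero q]

/-- `W_{q²} Z = -Z` for `Z = H₂ - H`. -/
theorem ib_W_Z (Wq : ModelField K₁ (M' * q) ≃ₐ[K₁] ModelField K₁ (M' * q))
    (W : ModelField K₁ (M' * q * q) ≃ₐ[K₁] ModelField K₁ (M' * q * q))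
    (hAL : IsAL2 K₁ M' q Wq W)
    (H0 : ModelField K₁ M') (hH0 : (H0 : LaurentSeries K₁) = h4S K₁)
    (Z : ModelField K₁ (M' * q * q)) (hZ : (Z : LaurentSeries K₁) = sZ K₁ q) :
    W Z = -Z := by
  have eZ : Z = heckeBetaBar K₁ (M' * q) q (heckeBetaBar K₁ M' q H0) -
      heckeAlphaBar K₁ (M' * q) q (heckeAlphaBar K₁ M' q H0) := by
    apply Subtype.ext
    rw [hZ]
    show sZ K₁ q = ((heckeBetaBar K₁ (M' * q) q (heckeBetaBar K₁ M' q H0) :
        ModelField K₁ (M' * q * q)) : LaurentSeries K₁) -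
      ((heckeAlphaBar K₁ (M' * q) q (heckeAlphaBar K₁ M' q H0) :
        ModelField K₁ (M' * q * q)) : LaurentSeries K₁)
    rw [coe_heckeBetaBar, coe_heckeBetaBar, coe_heckeAlphaBar, coe_heckeAlphaBar, hH0]
    rfl
  rw [eZ, map_sub, hAL.beta, hAL.alpha, hAL.al.1, hAL.al.2]
  ring

/-- **The four concrete inputs (I-α), (I-β), (F-α), (F-β)** of
`Fermat.Agent.H83.SS2.val3Data_of_table` for the Hauptmodul of level 4. -/
theorem val3Inputs_h4 (hq : q.Prime) (hqA : ¬ IsUnit ((q : ℕ) : A₀))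
    (Wq : ModelField K₁ (M' * q) ≃ₐ[K₁] ModelField K₁ (M' * q))
    (W : ModelField K₁ (M' * q * q) ≃ₐ[K₁] ModelField K₁ (M' * q * q))
    (hAL : IsAL2 K₁ M' q Wq W)
    (H0 : ModelField K₁ M') (hH0 : (H0 : LaurentSeries K₁) = h4S K₁)
    (Z : ModelField K₁ (M' * q * q)) (hZ : (Z : LaurentSeries K₁) = sZ K₁ q) :
    (∀ c : Fin q → ModelField K₁ (M' * q), (∀ j, c j ∈ vZero K₁ A₀ (M' * q) Wq) →
      (∑ j, (heckeAlphaBar K₁ (M' * q) q).toRingHom (c j) * Z ^ (j : ℕ)) ∈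
        (vZero K₁ A₀ (M' * q * q) W).nonunits →
      ∀ j, c j ∈ (vZero K₁ A₀ (M' * q) Wq).nonunits) ∧
    (∀ c : Fin q → ModelField K₁ (M' * q), (∀ j, c j ∈ vInf K₁ A₀ (M' * q)) →
      (∑ j, (heckeBetaBar K₁ (M' * q) q).toRingHom (c j) * Z ^ (j : ℕ)) ∈
        (vInf K₁ A₀ (M' * q * q)).nonunits →
      ∀ j, c j ∈ (vInf K₁ A₀ (M' * q)).nonunits) ∧
    (∃ b₀ ∈ vZero K₁ A₀ (M' * q) Wq,
      Z ^ q - (heckeAlphaBar K₁ (M' * q) q).toRingHom b₀ ∈
        (vZero K₁ A₀ (M' * q * q) W).nonunits) ∧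
    (∃ b₁ ∈ vInf K₁ A₀ (M' * q),
      Z ^ q - (heckeBetaBar K₁ (M' * q) q).toRingHom b₁ ∈
        (vInf K₁ A₀ (M' * q * q)).nonunits) := by
  haveI hqF : Fact q.Prime := ⟨hq⟩
  haveI := ib_charP K₁ A₀ q hq hqA
  set B := rangeVal A₀ K₁ with hB
  set h : vGaussRing B := ibH4 B with hh
  set h₁ : vGaussRing B := ibQ B q (ibH4 B) with hh₁
  have hne := vGaussRed_ibH4_ne_zero B
  have hord := vGaussRed_ibH4_order B q hq
  have hfrob := vGaussRed_ibH4_frob B q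
  have hZ' : ibCoe K₁ (M' * q * q) Z =
      qExpand K₁ q (h₁ : LaurentSeries K₁) - (h : LaurentSeries K₁) := by
    rw [ibCoe_apply, hZ, hh₁, ibQ_coe, hh, ibH4_coe]
    rfl
  have hWZ := ib_W_Z M' q Wq W hAL H0 hH0 Z hZ
  -- `Y₁`
  set Y₁ : ModelField K₁ (M' * q) := heckeAlphaBar K₁ M' q H0 - (heckeBetaBar K₁ M' q H0) ^ q
    with hY₁
  have hY : ibCoe K₁ (M' * q) Y₁ = (h : LaurentSeries K₁) - (h₁ : LaurentSeries K₁) ^ q := by
    rw [hY₁, map_sub, map_pow, ibCoe_apply, ibCoe_apply, coe_heckeAlphaBar, coe_heckeBetaBar,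
      hH0, hh₁, ibQ_coe, hh, ibH4_coe]
  refine ⟨?_, ?_, ?_, ?_⟩
  · exact indAlpha_model A₀ (M' * q) q hq h h₁ hne hord Z hZ' Wq W hAL.alpha hWZ
  · exact indBeta_model A₀ (M' * q) q hq h h₁ hne hord Z hZ'
  · exact congAlpha_model A₀ (M' * q) q h h₁ hfrob Z hZ' Y₁ hY Wq W hAL.alpha hWZ
  · obtain ⟨hY₁mem, hcong⟩ := congBeta_model A₀ (M' * q) q h h₁ hfrob Z hZ' Y₁ hY
    refine ⟨-Y₁, neg_mem hY₁mem, ?_⟩
    rw [map_neg, sub_neg_eq_add]
    exact hcong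

end Model

end Fermat.Agent.H58.SS2
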